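import Fermat.Agent.DR.Gal.Matrix
import Fermat.Agent.DR.Gal.Level
import Fermat.Agent.DR.Gal.Main
import Fermat.Agent.GAL.GeomFinal
import Fermat.Agent.GAL.KL.All

/-!
# S34 from `DRGeom` at neat levels

`DRGeomNeat` (= the output of DR/Abs + DR/Conc, in the shape of `DR/Gal/Conc.lean`) gives
`GeomInputDR`, hence the exact statement S34 (`s34_of_geomInputDR`).
-/

set_option autoImplicit false

namespace Fermat.Agent.DR.S34

open Fermat.Agent.GAL Fermat.Agent.S24 Fermat.Agent.GAL.Tors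

/-- INJ at all levels (KL at all levels). -/
theorem injAt_all (M p : ℕ) [NeZero M] : INJAt M p := by
  intro k ℓ hℓ hℓM A hA
  exact KL.klAll M (NeZero.ne M) A (p ^ k)
    (natCast_residueField_ne_zero A hℓ hA fun h => hℓM (h.mul_right p))
    (natCast_residueField_ne_zero A hℓ hA fun h => hℓM ((hℓ.dvd_of_dvd_pow h).mul_left M))

/-- **What remains to be proved for S34** : `DRGeom` at all places over `q`, all exponents `p ^ k`,
for neat `M` prime to `q`. -/
def DRGeomNeat : Prop :=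
  ∀ (M q p : ℕ) [NeZero M] [NeZero q] (hq : q.Prime) (hqM : ¬ q ∣ M), (4 ∣ M ∨ 9 ∣ M) → p.Prime →
    q ≠ p → Gal.DRGeomAll M q hq hqM p

theorem kvUnipotent_all (H : DRGeomNeat) (M q p : ℕ) [NeZero M] [NeZero q] (hq : q.Prime)
    (hqM : ¬ q ∣ M) (hp : p.Prime) (hqp : q ≠ p) : KVUnipotent M q p :=
  Gal.kvUnipotent_of_neat
    (fun M q p _ _ hneat hq hqM hp hqp =>
      Gal.kvUnipotent_of_DRGeom M q hq hqM hp.pos (H M q p hq hqM hneat hp hqp))
    M q p hq hqM hp hqp

theorem geomInputDR_of_DRGeomNeat (H : DRGeomNeat) : GeomInputDR :=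
  Gal.geomInputDR_of (fun N _ => nonempty_torsDatum' N)
    (fun N p _ _ => kvUnramified_of_injAt N p (injAt_all N p))
    (fun N p _ _ => kvFrobRel_of_injAt N p (injAt_all N p))
    (fun M q p _ _ hq hqM hp hqp => kvUnipotent_all H M q p hq hqM hp hqp)

end Fermat.Agent.DR.S34
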