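import Mathlib
import Fermat.Prelude.Def_GaloisRep_Adic
import Fermat.Prelude.Def_GaloisRep_LocalConditions
import Fermat.Agent.GAL.S31.Abstract

/-!
# Unipotent inertia of a Hecke-valued Galois representation from an abstract datum

`isUnipotentOnInertiaAt_of_levelData`: same setting as
`Fermat.Agent.GAL.S31.isUnramifiedAt_of_levelData`.  If `q ≠ p` is a prime such that every element
`i` of every inertia group at `q` satisfies `(i - 1)^2 = 0` on (the image of the lattice in) every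
level datum, then the characteristic polynomial of `ρ i` is `(X - 1)^2`.
-/

set_option autoImplicit false

namespace Fermat.Agent.DR.S34

open Module Polynomial Fermat.Agent.GAL.S31

local notation "Γℚ" => (AlgebraicClosure ℚ ≃ₐ[ℚ] AlgebraicClosure ℚ)

section LinAlg

variable {T : Type*} [CommRing T] {V : Type*} [AddCommGroup V] [Module T V]
  [Module.Free T V] [Module.Finite T V]

/-- The characteristic polynomial of an endomorphism of a free module of rank two. -/
theorem charpoly_eq_of_finrank_two [Nontrivial T] (hV : Module.finrank T V = 2)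
    (f : Module.End T V) :
    LinearMap.charpoly f =
      X ^ 2 - C (LinearMap.trace T V f) * X + C (LinearMap.det f) := by
  let b := Module.finBasisOfFinrankEq T V hV
  rw [← LinearMap.charpoly_toMatrix f b, Matrix.charpoly_fin_two,
    LinearMap.trace_eq_matrix_trace T b, ← LinearMap.det_toMatrix b]

/-- The determinant read off from the characteristic polynomial in rank two. -/
theorem det_eq_of_charpoly [Nontrivial T] (hV : Module.finrank T V = 2) (f : Module.End T V)
    (a d : T) (h : LinearMap.charpoly f = X ^ 2 - C a * X + C d) : LinearMap.det f = d := by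
  have h1 := charpoly_eq_of_finrank_two hV f
  rw [h] at h1
  have h2 := congrArg (fun P : T[X] => P.coeff 0) h1
  simp only [coeff_add, coeff_sub, coeff_X_pow, coeff_C_mul, coeff_X_zero, mul_zero, coeff_C_zero]
    at h2
  simpa using h2.symm

/-- An endomorphism congruent to the identity modulo `I` has determinant congruent to `1`. -/
theorem det_sub_one_mem_of_forall_mem (I : Ideal T) (u : Module.End T V)
    (hu : ∀ v, u v - v ∈ I • (⊤ : Submodule T V)) : LinearMap.det u - 1 ∈ I := by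
  classical
  let b := Module.Free.chooseBasis T V
  rw [← LinearMap.det_toMatrix b, ← Ideal.Quotient.eq_zero_iff_mem, map_sub, map_one,
    RingHom.map_det, sub_eq_zero]
  have : (Ideal.Quotient.mk I).mapMatrix (LinearMap.toMatrix b b u) = 1 := by
    ext i j
    rw [RingHom.mapMatrix_apply, Matrix.map_apply, LinearMap.toMatrix_apply]
    have h1 := repr_mem_of_mem_smul_top b I (hu (b j)) i
    rw [map_sub, Finsupp.sub_apply, Basis.repr_self] at h1
    have h2 := (Ideal.Quotient.eq_zero_iff_mem).mpr h1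
    rw [map_sub, sub_eq_zero] at h2
    rw [h2, Matrix.one_apply, Finsupp.single_apply]
    by_cases hij : i = j
    · rw [if_pos hij.symm, if_pos hij, map_one]
    · rw [if_neg (fun h => hij h.symm), if_neg hij, map_zero]
  rw [this, Matrix.det_one]

end LinAlg

section Main

variable {T : Type} [CommRing T] [IsLocalRing T]
  {p : ℕ} {S : Finset ℕ} {H : Type} [Ring H] {X : ℕ → H}

/-- Determinant version of `Fermat.Agent.GAL.S31.approx`. -/
theorem approx_det (ρ : GaloisRepAdic T) (πH : H →+* T) (hp : p.Prime) (hpS : p ∈ S)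
    (hchar : ∀ ℓ : ℕ, ℓ.Prime → ℓ ∉ S → ∀ A : ValuationSubring (AlgebraicClosure ℚ),
      A.LiesOverPrime ℓ → ∀ σ : Γℚ, A.IsFrobeniusAt σ ℓ →
        LinearMap.charpoly (ρ.ρ σ) = Polynomial.X ^ 2 - C (πH (X ℓ)) * Polynomial.X + C ((ℓ : T)))
    (hdens : FrobDense S) (k K : ℕ)
    {ζ : AlgebraicClosure ℚ} (hζ : ζ ^ (p ^ K) = 1) (g : Γℚ) :
    ∃ c : ℕ, LinearMap.det (ρ.ρ g) - (c : T) ∈ IsLocalRing.maximalIdeal T ^ k ∧ g ζ = ζ ^ c := by
  obtain ⟨Lk, hLk, hρ⟩ := ρ.isAdicContinuous k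
  have hgal : IsGalois ℚ (AlgebraicClosure ℚ) := isGalois_Qbar inferInstance
  have : FiniteDimensional ℚ (IntermediateField.adjoin ℚ {ζ}) :=
    IntermediateField.adjoin.finiteDimensional (Algebra.IsIntegral.isIntegral ζ)
  let F0 : IntermediateField ℚ (AlgebraicClosure ℚ) := Lk ⊔ IntermediateField.adjoin ℚ {ζ}
  have hF0fin : FiniteDimensional ℚ F0 := IntermediateField.finiteDimensional_sup _ _
  let F := IntermediateField.normalClosure ℚ F0 (AlgebraicClosure ℚ)
  have hF0 : F0 ≤ F := IntermediateField.le_normalClosure F0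
  have hFfin : FiniteDimensional ℚ F := inferInstance
  have hFnorm : ∀ σ : Γℚ, ∀ x ∈ F, σ x ∈ F := by
    intro σ x hx
    have hn : Normal ℚ F := normalClosure.normal ℚ F0 (AlgebraicClosure ℚ)
    have := IntermediateField.normal_iff_forall_map_le.mp hn (σ : AlgebraicClosure ℚ →ₐ[ℚ] _)
    exact this ⟨x, hx, rfl⟩
  obtain ⟨ℓ, hℓ, hℓS, A, hA, τ, hτ, r, hr⟩ := hdens F hFfin g
  have hℓp : ¬ ℓ ∣ p ^ K := by
    intro hd
    have := (Nat.prime_dvd_prime_iff_eq hℓ hp).mp (hℓ.dvd_of_dvd_pow hd)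
    exact hℓS (this ▸ hpS)
  have hσ : ∀ y ∈ F, (g * (τ ^ r)⁻¹) y = y := by
    intro y hy
    rw [AlgEquiv.mul_apply, hr _ (hFnorm (τ ^ r)⁻¹ y hy), ← AlgEquiv.mul_apply, mul_inv_cancel,
      AlgEquiv.one_apply]
  refine ⟨ℓ ^ r, ?_, ?_⟩
  · have h1 : LinearMap.det (ρ.ρ (τ ^ r)) = ((ℓ ^ r : ℕ) : T) := by
      rw [map_pow, map_pow, det_eq_of_charpoly ρ.finrank_eq _ _ _ (hchar ℓ hℓ hℓS A hA τ hτ),
        Nat.cast_pow]
    have h2 : LinearMap.det (ρ.ρ (g * (τ ^ r)⁻¹)) - 1 ∈ IsLocalRing.maximalIdeal T ^ k :=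
      det_sub_one_mem_of_forall_mem _ _
        (hρ (g * (τ ^ r)⁻¹) (fun y hy => hσ y (hF0 (le_sup_left (a := Lk) hy))))
    have h3 : LinearMap.det (ρ.ρ g) =
        LinearMap.det (ρ.ρ (g * (τ ^ r)⁻¹)) * LinearMap.det (ρ.ρ (τ ^ r)) := by
      rw [← map_mul, ← map_mul, inv_mul_cancel_right]
    rw [h3, h1]
    have h4 : LinearMap.det (ρ.ρ (g * (τ ^ r)⁻¹)) * ((ℓ ^ r : ℕ) : T) - ((ℓ ^ r : ℕ) : T) =
        (LinearMap.det (ρ.ρ (g * (τ ^ r)⁻¹)) - 1) * ((ℓ ^ r : ℕ) : T) := by ring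
    rw [h4]
    exact Ideal.mul_mem_right _ _ h2
  · have hζF : ζ ∈ F := hF0 (le_sup_right (a := Lk)
      (IntermediateField.mem_adjoin_simple_self ℚ ζ))
    rw [hr ζ hζF, frobenius_pow_apply_root A hℓ hA hτ hℓp hζ]

variable {L : Type} [AddCommGroup L] [Module.Free ℤ L] [Module.Finite ℤ L]
  {actL : H →+* Module.End ℤ L}

/-- The abstract form of S34. -/
theorem isUnipotentOnInertiaAt_of_levelData [IsNoetherianRing T] (ρ : GaloisRepAdic T)
    (πH : H →+* T) (hp : p.Prime)
    (hpT : (p : T) ∈ IsLocalRing.maximalIdeal T) (hpS : p ∈ S)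
    (hchar : ∀ ℓ : ℕ, ℓ.Prime → ℓ ∉ S → ∀ A : ValuationSubring (AlgebraicClosure ℚ),
      A.LiesOverPrime ℓ → ∀ σ : Γℚ, A.IsFrobeniusAt σ ℓ →
        LinearMap.charpoly (ρ.ρ σ) = Polynomial.X ^ 2 - C (πH (X ℓ)) * Polynomial.X + C ((ℓ : T)))
    (hker : ∀ t : H, actL t = 0 → πH t = 0)
    (hdens : FrobDense S) (q : ℕ) (hq : q.Prime) (hqp : q ≠ p)
    (hlev : ∀ K : ℕ, ∃ D : LevelDatum p S X actL K,
      ∀ P : ValuationSubring (AlgebraicClosure ℚ), P.LiesOverPrime q →
        ∀ σ ∈ P.inertiaSubgroupIn ℚ, ∀ x : L,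
          D.actG σ (D.e x) + D.actG σ⁻¹ (D.e x) = (2 : ℤ) • D.e x) :
    ρ.IsUnipotentOnInertiaAt q := by
  intro P hP i hi
  obtain ⟨a, ha⟩ := exists_artinRees actL p
  have hqp' : ∀ K : ℕ, ¬ q ∣ p ^ K := by
    intro K hd
    exact hqp ((Nat.prime_dvd_prime_iff_eq hq hp).mp (hq.dvd_of_dvd_pow hd))
  have hkrull := Ideal.iInf_pow_eq_bot_of_isLocalRing (IsLocalRing.maximalIdeal T)
    (Ideal.IsPrime.ne_top inferInstance)
  -- the exponent `c` is `1` modulo `p ^ K`
  have hmodOne : ∀ (K : ℕ) (ζ : AlgebraicClosure ℚ), IsPrimitiveRoot ζ (p ^ K) → ∀ c : ℕ,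
      i ζ = ζ ^ c → (c : ℤ) ≡ 1 [ZMOD (p ^ K : ℕ)] := by
    intro K ζ hζ c hc
    have hne : p ^ K ≠ 0 := pow_ne_zero _ hp.ne_zero
    have hζ0 : ζ ≠ 0 := hζ.ne_zero hne
    have hcc : ζ ^ c = ζ := by
      rw [← hc, inertia_apply_root P hq hP hi (hqp' K) hζ.pow_eq_one]
    have h1 : ζ ^ ((1 : ℤ) - (c : ℤ)) = 1 := by
      rw [zpow_sub₀ hζ0, zpow_natCast, zpow_one, hcc, div_self hζ0]
    exact (Int.modEq_iff_dvd).mpr ((hζ.zpow_eq_one_iff_dvd _).mp h1)
  have htr : LinearMap.trace T ρ.V (ρ.ρ i) = 2 := by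
    have key : ∀ k : ℕ, LinearMap.trace T ρ.V (ρ.ρ i) - 2 ∈ IsLocalRing.maximalIdeal T ^ k := by
      intro k
      obtain ⟨D, hD⟩ := hlev (k + a)
      have hne : NeZero (p ^ (k + a)) := ⟨pow_ne_zero _ hp.ne_zero⟩
      obtain ⟨ζ, hζ⟩ :=
        HasEnoughRootsOfUnity.exists_primitiveRoot (AlgebraicClosure ℚ) (p ^ (k + a))
      obtain ⟨t, c, ht, hc, hW⟩ := approx ρ πH hp hpS hchar hdens k D hζ.pow_eq_one i
      have hmod := hmodOne (k + a) ζ hζ c hc
      have hδ : ∀ x : L, ∃ y : L, actL (t - 2) x = (p ^ (k + a) : ℤ) • y := by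
        intro x
        apply D.ker_e
        have h2 : D.actH (2 : H) (D.e x) = (2 : ℤ) • D.e x := by
          have : (2 : H) = ((2 : ℕ) : H) := by norm_num
          rw [this, map_natCast, Module.End.natCast_apply]
          have h := natCast_zsmul (D.e x) 2
          push_cast at h
          exact h.symm
        rw [D.e_actL, map_sub, LinearMap.sub_apply, hW, h2, ← hD P hP i hi x,
          add_sub_add_left_eq_sub]
        obtain ⟨m, hm⟩ := hmod.symm.dvd
        have h3 : c • D.actG i⁻¹ (D.e x) - D.actG i⁻¹ (D.e x) =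
            ((c : ℤ) - 1) • D.actG i⁻¹ (D.e x) := by
          rw [sub_smul, one_smul, natCast_zsmul]
        rw [h3, hm, mul_comm, mul_smul, ← map_zsmul]
        have := D.pow_smul_e x
        push_cast
        rw [this, map_zero, smul_zero]
      obtain ⟨δ', hδ'⟩ := ha k (t - 2) hδ
      have h1 := hker _ hδ'
      rw [map_sub, map_sub, map_mul, map_pow, map_natCast, sub_eq_zero] at h1
      have h2 : πH t - 2 ∈ IsLocalRing.maximalIdeal T ^ k := by
        have h22 : πH (2 : H) = 2 := by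
          have : (2 : H) = ((2 : ℕ) : H) := by norm_num
          rw [this, map_natCast]
          norm_num
        rw [← h22, h1]
        exact Ideal.mul_mem_right _ _ (Ideal.pow_mem_pow hpT k)
      have h3 : LinearMap.trace T ρ.V (ρ.ρ i) - 2 =
          (LinearMap.trace T ρ.V (ρ.ρ i) - πH t) + (πH t - 2) := by ring
      rw [h3]
      exact Ideal.add_mem _ ht h2
    have : LinearMap.trace T ρ.V (ρ.ρ i) - 2 ∈ (⨅ k, IsLocalRing.maximalIdeal T ^ k : Ideal T) := by
      rw [Ideal.mem_iInf]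
      exact key
    rw [hkrull, Ideal.mem_bot, sub_eq_zero] at this
    exact this
  have hdet : LinearMap.det (ρ.ρ i) = 1 := by
    have key : ∀ k : ℕ, LinearMap.det (ρ.ρ i) - 1 ∈ IsLocalRing.maximalIdeal T ^ k := by
      intro k
      have hne : NeZero (p ^ k) := ⟨pow_ne_zero _ hp.ne_zero⟩
      obtain ⟨ζ, hζ⟩ := HasEnoughRootsOfUnity.exists_primitiveRoot (AlgebraicClosure ℚ) (p ^ k)
      obtain ⟨c, hc1, hc2⟩ := approx_det ρ πH hp hpS hchar hdens k k hζ.pow_eq_one i
      obtain ⟨m, hm⟩ := (hmodOne k ζ hζ c hc2).symm.dvd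
      have h1 : (c : T) - 1 = (p : T) ^ k * (m : T) := by
        have := congrArg (Int.cast : ℤ → T) hm
        push_cast at this
        exact this
      have h2 : (c : T) - 1 ∈ IsLocalRing.maximalIdeal T ^ k := by
        rw [h1]
        exact Ideal.mul_mem_right _ _ (Ideal.pow_mem_pow hpT k)
      have h3 : LinearMap.det (ρ.ρ i) - 1 = (LinearMap.det (ρ.ρ i) - (c : T)) + ((c : T) - 1) := by
        ring
      rw [h3]
      exact Ideal.add_mem _ hc1 h2
    have : LinearMap.det (ρ.ρ i) - 1 ∈ (⨅ k, IsLocalRing.maximalIdeal T ^ k : Ideal T) := by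
      rw [Ideal.mem_iInf]
      exact key
    rw [hkrull, Ideal.mem_bot, sub_eq_zero] at this
    exact this
  rw [charpoly_eq_of_finrank_two ρ.finrank_eq, htr, hdet]
  simp only [map_ofNat, map_one]
  ring

end Main

end Fermat.Agent.DR.S34
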