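import Mathlib
import Fermat.Prelude.Def_CuspForm_HeckeGaloisRepDatum
import Fermat.Prelude.Def_GaloisRep_LocalConditions
import Fermat.Agent.GAL.S31.Bridge
import Fermat.Agent.Lib.FrobDensity.GALInterface
import Fermat.Agent.DR.S34.Abstract

/-!
# S34 from an Eichler--Shimura datum with unipotent inertia at `q`

* `isUnipotentOnInertiaAt_of_esDatumAt`: the conclusion of S34 from an `ESDatumAt N M p`
  (`M ≠ 0`) such that `(ρ σ - 1) ^ 2 = 0` for all `σ` in all inertia groups at `q ≠ p`.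
* `GeomInputDR`: what the geometric side (project DR) has to deliver.
* `s34_of_geomInputDR`: the exact statement S34 with the single extra hypothesis `GeomInputDR`.
-/

set_option autoImplicit false

namespace Fermat.Agent.DR.S34

open CuspForm Fermat.Agent.GAL Fermat.Agent.GAL.S31

/-- In any ring, `(x - 1)^2 = 0` and `x y = 1` imply `x + y = 2`. -/
theorem add_inv_eq_two {R : Type*} [Ring R] {x y : R} (hxy : x * y = 1)
    (h : (x - 1) * (x - 1) = 0) : x + y = 2 := by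
  have h1 : (x - 1) * (x - 1) * y = x + y - 2 := by
    have : (x - 1) * (x - 1) * y = x * (x * y) - (x * y) - (x * y) + y := by noncomm_ring
    rw [this, hxy, mul_one]
    abel_nf
    rw [show (2 : R) = 1 + 1 by norm_num]
    abel
  rw [h, zero_mul] at h1
  exact (sub_eq_zero.mp h1.symm)

section Final

variable {p : ℕ} {N : ℕ} [NeZero N] {S : Finset ℕ}
  {𝒪 : Type} [CommRing 𝒪] [IsDomain 𝒪] [IsDiscreteValuationRing 𝒪]
  [IsAdicComplete (IsLocalRing.maximalIdeal 𝒪) 𝒪]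
  {θ : CuspForm.heckeAlgebra N 2 (↑S : Set ℕ) →+* IsLocalRing.ResidueField 𝒪}
  {T : Type} [CommRing T] [IsLocalRing T] [IsNoetherianRing T]
  [IsAdicComplete (IsLocalRing.maximalIdeal T) T] [Algebra 𝒪 T] [IsLocalHom (algebraMap 𝒪 T)]
  [Module.Finite 𝒪 T] [Module.Free 𝒪 T]

/-- **S34** at `q` from an Eichler--Shimura datum for level `N` at `p` (auxiliary level `M ≠ 0`)
on which all inertia groups at `q ≠ p` act by elements `σ` with `(σ - 1)^2 = 0`, and Frobenius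
density. -/
theorem isUnipotentOnInertiaAt_of_esDatumAt [Fact p.Prime] {M : ℕ} (D : ESDatumAt N M p)
    (hM : M ≠ 0) (hdens : FrobeniusDensity)
    (hp𝒪 : (p : 𝒪) ∈ IsLocalRing.maximalIdeal 𝒪) (hpS : p ∈ S)
    (hNS : ∀ q : ℕ, q.Prime → q ∣ N → q ∈ S)
    (H : CuspForm.HeckeGaloisRepDatum N (↑S : Set ℕ) 𝒪 θ T)
    (q : ℕ) (hq : q.Prime) (hqp : q ≠ p)
    (hunip : ∀ A : ValuationSubring (AlgebraicClosure ℚ), A.LiesOverPrime q →
      ∀ σ ∈ A.inertiaSubgroupIn ℚ, (D.ρ σ - 1) * (D.ρ σ - 1) = 0) :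
    H.ρ.IsUnipotentOnInertiaAt q := by
  refine isUnipotentOnInertiaAt_of_levelData (p := p) (S := S ∪ M.primeFactors)
    (X := FreeAlgebra.ι ℤ)
    (actL := (matEnd ℤ D.r).comp (toMat D S).toRingHom) H.ρ
    (H.π.comp (toHecke (N := N) S M).toRingHom) Fact.out ?_ (Finset.mem_union_left _ hpS) ?_ ?_
    (frobDense_of_frobeniusDensity hdens _) q hq hqp
    (fun K => ⟨levelDatum D S hM hpS hNS K, ?_⟩)
  · have := map_nonunit (algebraMap 𝒪 T) (p : 𝒪) hp𝒪
    rwa [map_natCast] at this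
  · intro ℓ hℓ hℓS A hA σ hσ
    have hℓS₀ : ℓ ∉ S := fun h => hℓS (Finset.mem_union_left _ h)
    have hℓN : ¬ ℓ ∣ N := fun h => hℓS₀ (hNS ℓ hℓ h)
    have hℓS' : ℓ ∉ (↑S : Set ℕ) := by simpa using hℓS₀
    rw [H.charpoly_frob ℓ hℓ hℓN hℓS' A hA σ hσ, RingHom.comp_apply]
    have : (toHecke (N := N) S M).toRingHom (FreeAlgebra.ι ℤ ℓ) = heckeAlgebra.T hℓ hℓN hℓS' :=
      toHecke_ι S hℓ hℓN hℓS' (not_dvd_of_notMem S hM hℓ hℓS)
    rw [this]
  · intro t ht
    have h1 : toMat D S t = 0 := by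
      apply matEnd_injective D.r
      rw [map_zero]
      exact ht
    rw [RingHom.comp_apply]
    have : (toHecke (N := N) S M).toRingHom t = 0 := toHecke_eq_zero_of_toMat D S t h1
    rw [this, map_zero]
  · intro P hP σ hσ x
    have hxy : D.ρ σ * D.ρ σ⁻¹ = 1 := by rw [← map_mul, mul_inv_cancel, map_one]
    have h1 := add_inv_eq_two hxy (hunip P hP σ hσ)
    have h2 := congrArg ((matEnd (ZMod (p ^ K)) D.r).comp (PadicInt.toZModPow K).mapMatrix) h1
    rw [map_add] at h2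
    have h3 : ((matEnd (ZMod (p ^ K)) D.r).comp (PadicInt.toZModPow K).mapMatrix)
        (2 : Matrix (Fin D.r) (Fin D.r) ℤ_[p]) = ((2 : ℕ) : Module.End ℤ (Fin D.r → ZMod (p ^ K))) := by
      have : (2 : Matrix (Fin D.r) (Fin D.r) ℤ_[p]) = ((2 : ℕ) : Matrix (Fin D.r) (Fin D.r) ℤ_[p]) := by
        norm_num
      rw [this, map_natCast]
    rw [h3] at h2
    have h4 := LinearMap.congr_fun h2 ((levelDatum D S hM hpS hNS K).e x)
    rw [LinearMap.add_apply, Module.End.natCast_apply] at h4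
    have h5 := natCast_zsmul ((levelDatum D S hM hpS hNS K).e x) 2
    push_cast at h5
    rw [h5]
    exact h4

end Final

/-- **What the geometric side of project DR has to deliver for S34**: for every level `N`, every
prime `p` and every prime `q ≠ p` with `q ∥ N`, an Eichler--Shimura datum for level `N` (with some
auxiliary level `M ≠ 0`) on which every element `σ` of every inertia group at `q` satisfies
`(σ - 1)^2 = 0`. -/
def GeomInputDR : Prop :=
  ∀ (N p : ℕ) [NeZero N] [Fact p.Prime] (q : ℕ), q.Prime → q ≠ p → q ∣ N → ¬ q ^ 2 ∣ N →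
    ∃ M : ℕ, M ≠ 0 ∧ ∃ D : ESDatumAt N M p,
      ∀ A : ValuationSubring (AlgebraicClosure ℚ), A.LiesOverPrime q →
        ∀ σ ∈ A.inertiaSubgroupIn ℚ, (D.ρ σ - 1) * (D.ρ σ - 1) = 0

open IsLocalRing in
/-- The exact statement S34 with the single extra hypothesis `GeomInputDR`. -/
theorem s34_of_geomInputDR (hgeom : GeomInputDR)
    {𝒪 : Type} [CommRing 𝒪] [IsDomain 𝒪] [IsDiscreteValuationRing 𝒪]
    [IsAdicComplete (maximalIdeal 𝒪) 𝒪] [Finite (ResidueField 𝒪)] [CharZero 𝒪]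
    {p : ℕ} (hp : p.Prime) (hp𝒪 : (p : 𝒪) ∈ maximalIdeal 𝒪)
    {N : ℕ} [NeZero N] {S : Finset ℕ} (hpS : p ∈ S) (hNS : ∀ q : ℕ, q.Prime → q ∣ N → q ∈ S)
    {θ : CuspForm.heckeAlgebra N 2 (↑S : Set ℕ) →+* ResidueField 𝒪}
    {T : Type} [CommRing T] [IsLocalRing T] [IsNoetherianRing T]
    [IsAdicComplete (maximalIdeal T) T] [Algebra 𝒪 T] [IsLocalHom (algebraMap 𝒪 T)]
    [Module.Finite 𝒪 T] [Module.Free 𝒪 T]
    (H : CuspForm.HeckeGaloisRepDatum N (↑S : Set ℕ) 𝒪 θ T)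
    (q : ℕ) (hq : q.Prime) (hqp : q ≠ p) (hqN : q ∣ N) (hq2 : ¬ q ^ 2 ∣ N) :
    H.ρ.IsUnipotentOnInertiaAt q := by
  have : Fact p.Prime := ⟨hp⟩
  obtain ⟨M, hM, D, hD⟩ := hgeom N p q hq hqp hqN hq2
  exact isUnipotentOnInertiaAt_of_esDatumAt D hM
    Fermat.Agent.Lib.FrobDensity.gal_frobeniusDensity hp𝒪 hpS hNS H q hq hqp hD

end Fermat.Agent.DR.S34
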